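import Fermat.Agent.OrdinaryCurve.Interface
import Fermat.Agent.HeckeEigen.Integral
import Fermat.Agent.S23
import Fermat.Prelude.Thm_CuspForm_intLattice_fg

/-!
# A saturated integral basis of the weight two forms on `Γ₀(N)`

A `ℤ`-basis of the lattice of forms with integral coefficients spans the forms and is saturated.
-/

set_option autoImplicit false

noncomputable section

open ModularFormClass CongruenceSubgroup

namespace Fermat.Agent.OrdinaryExclusion

open OrdinaryCurve (QBasis)

/-- A basis of the lattice of forms with integral coefficients is a `QBasis`. -/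
theorem nonempty_qBasis (N : ℕ) [NeZero N] : Nonempty (QBasis N) := by
  classical
  set L := CuspForm.intLattice N 2
  have : Module.Finite ℤ L := Module.Finite.iff_fg.mpr (CuspForm.intLattice_fg N 2)
  have : NoZeroSMulDivisors ℤ (CuspForm (Gamma0 N) 2) := ⟨fun {c f} h => by
    rw [← Int.cast_smul_eq_zsmul ℂ] at h
    exact (smul_eq_zero.mp h).imp_left fun h => Int.cast_eq_zero.mp h⟩
  have : Module.IsTorsionFree ℤ L := inferInstance
  let b := Module.finBasis ℤ L
  have hmem : ∀ i, ∀ n : ℕ, ∃ m : ℤ, qCoeff ((b i : CuspForm (Gamma0 N) 2)) n = (m : ℂ) := fun i =>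
    HeckeEigen.mem_intLattice_iff_qCoeff.mp (b i).2
  choose a ha using hmem
  have hzero : ∀ c : Fin (Module.finrank ℤ L) → ℤ, (∀ n, ∑ i, c i * a i n = 0) → c = 0 := by
    intro c hc
    have h0 : (∑ i, c i • b i : L) = 0 := Subtype.ext (HeckeEigen.ext_qCoeff fun n => by
      rw [AddSubmonoidClass.coe_finsetSum, HeckeEigen.qCoeff_sum, ZeroMemClass.coe_zero,
        HeckeEigen.qCoeff_zero_form]
      simp only [SetLike.val_smul, HeckeEigen.qCoeff_zsmul, ha]
      exact_mod_cast hc n)
    exact funext (Fintype.linearIndependent_iff.mp b.linearIndependent c h0)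
  refine ⟨⟨Module.finrank ℤ L, fun i => (b i : CuspForm (Gamma0 N) 2), fun n i => a i n,
    fun n i => (ha i n).symm, ?_, ?_, fun m c hdvd i => ?_⟩⟩
  · refine Fintype.linearIndependent_iff.mpr fun z hz i₀ => ?_
    have h := HeckeEigen.sum_mul_eq_zero_of_int_relations a (fun i => if i = i₀ then 1 else 0)
      (fun c hc => by simp [hzero c hc]) z (fun n => by
        have h1 := congrArg (HeckeEigen.qCoeffLin N 2 n) hz
        rw [map_sum, map_zero] at h1
        rw [← h1]
        exact Finset.sum_congr rfl fun i _ => by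
          rw [map_smul, HeckeEigen.qCoeffLin_apply, ha, smul_eq_mul])
    simpa using h
  · rw [eq_top_iff, ← (S23.result N : Submodule.span ℂ (L : Set (CuspForm (Gamma0 N) 2)) = ⊤)]
    refine Submodule.span_le.mpr fun f hf => ?_
    have h := congrArg Subtype.val (b.sum_repr ⟨f, hf⟩)
    rw [AddSubmonoidClass.coe_finsetSum] at h
    change _ = f at h
    rw [SetLike.mem_coe, ← h]
    refine Submodule.sum_mem _ fun i _ => ?_
    rw [SetLike.val_smul, ← Int.cast_smul_eq_zsmul ℂ]
    exact Submodule.smul_mem _ _ (Submodule.subset_span ⟨i, rfl⟩)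
  · rcases eq_or_ne m 0 with rfl | hm
    · simp [hzero c fun n => zero_dvd_iff.mp (hdvd n)]
    · choose q hq using hdvd
      have hg : (m : ℂ)⁻¹ • (∑ j, c j • (b j : CuspForm (Gamma0 N) 2)) ∈ L :=
        HeckeEigen.mem_intLattice_iff_qCoeff.mpr fun n => ⟨q n, by
          rw [HeckeEigen.qCoeff_smul, HeckeEigen.qCoeff_sum]
          simp only [HeckeEigen.qCoeff_zsmul, ha]
          have := congrArg (fun x : ℤ => (x : ℂ)) (hq n)
          push_cast at this
          rw [this, ← mul_assoc, inv_mul_cancel₀ (Int.cast_ne_zero.mpr hm), one_mul]⟩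
      set g : L := ⟨_, hg⟩ with hgdef
      have hsum : m • g = ∑ j, c j • b j := Subtype.ext (by
        rw [SetLike.val_smul, hgdef, ← Int.cast_smul_eq_zsmul ℂ, smul_smul,
          mul_inv_cancel₀ (Int.cast_ne_zero.mpr hm), one_smul, AddSubmonoidClass.coe_finsetSum]
        simp)
      refine ⟨b.repr g i, ?_⟩
      have := congrArg (fun x => b.repr x i) hsum
      simpa [Finsupp.single_apply] using this.symm

end Fermat.Agent.OrdinaryExclusion
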