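import Fermat.Agent.OrdinaryExclusion.Torsion
import Fermat.Agent.HeckeDatum.Reduction
import Fermat.Agent.EigenRep.QuadraticRep

/-!
# Eigen torsion points satisfy the characteristic polynomial

If `y ∈ J₀(N)[p]` has the eigenvalues `tr r(Frob ℓ)` at almost all `ℓ`, then
`σσy - tr r(σ) σy + det r(σ) y = 0` for every `σ`, by the Eichler–Shimura relation and the density
of Frobenius elements.  In particular a `σ` acting on `y` by a scalar has that scalar as an
eigenvalue of `r(σ)`.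
-/

set_option autoImplicit false

noncomputable section

open ModularCurve Matrix

namespace Fermat.Agent.OrdinaryExclusion

local notation "Gal" => AlgebraicClosure ℚ ≃ₐ[ℚ] AlgebraicClosure ℚ

/-- Cayley–Hamilton for an invertible two by two matrix, symmetric form. -/
theorem add_det_smul_inv {k : Type*} [Field k] {G : Type*} [Group G]
    (r : G →* Matrix (Fin 2) (Fin 2) k) (g : G) :
    r g + (r g).det • r g⁻¹ = (r g).trace • (1 : Matrix (Fin 2) (Fin 2) k) := by
  have h1 : r g * r g⁻¹ = 1 := by rw [← map_mul, mul_inv_cancel, map_one]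
  have hadj : (r g).det • r g⁻¹ = (r g).adjugate := by
    calc (r g).det • r g⁻¹ = ((r g).adjugate * r g) * r g⁻¹ := by
          rw [adjugate_mul, smul_mul_assoc, one_mul]
      _ = (r g).adjugate := by rw [mul_assoc, h1, mul_one]
  rw [hadj, adjugate_fin_two]
  ext i j
  fin_cases i <;> fin_cases j <;> simp [trace_fin_two, add_comm]

/-- If `φ` satisfies on `V` the characteristic polynomial of `r φ`, every power of it does. -/
theorem pow_relation {G k V : Type*} [Group G] [Field k] [AddCommGroup V] [Module k V]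
    (ρ : G →* Module.End k V) (r : G →* Matrix (Fin 2) (Fin 2) k) {φ : G}
    (h : ρ φ * ρ φ - (r φ).trace • ρ φ + (r φ).det • (1 : Module.End k V) = 0) (b : ℕ) :
    ρ (φ ^ b) + (r (φ ^ b)).det • ρ (φ ^ b)⁻¹ =
      (r (φ ^ b)).trace • (1 : Module.End k V) := by
  let R : G →* Module.End k (V × (Fin 2 → k)) :=
    { toFun := fun g => (ρ g).prodMap (Matrix.toLinAlgEquiv' (r g))
      map_one' := by rw [map_one, map_one, map_one]; exact LinearMap.prodMap_one
      map_mul' := fun g g' => by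
        rw [map_mul, map_mul, map_mul]; exact (LinearMap.prodMap_mul ..).symm }
  let d : G →* k :=
    { toFun := fun g => (r g).det
      map_one' := by rw [map_one, det_one]
      map_mul' := fun g g' => by rw [map_mul, det_mul] }
  have hq : EigenRep.SatisfiesQuadratic R d φ := by
    refine ⟨(r φ).trace, EigenRep.satisfiesQuadratic_of_sq (LinearMap.ext fun z => Prod.ext ?_ ?_)⟩
    · exact LinearMap.congr_fun h z.1
    · have h2 := congrArg (· * r φ) (add_det_smul_inv r φ)
      have hinv : r φ⁻¹ * r φ = 1 := by rw [← map_mul, inv_mul_cancel, map_one]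
      simp only [add_mul, smul_mul_assoc, hinv, one_mul] at h2
      have h3 : r φ * r φ - (r φ).trace • r φ + (r φ).det • (1 : Matrix (Fin 2) (Fin 2) k) = 0 := by
        rw [← h2]; abel
      have h4 := LinearMap.congr_fun (congrArg Matrix.toLinAlgEquiv' h3) z.2
      simp only [map_add, map_sub, map_smul, map_mul, map_one, map_zero] at h4
      exact h4
  obtain ⟨c, hc⟩ := hq.pow b
  generalize φ ^ b = g at hc ⊢
  suffices c = (r g).trace by
    subst this
    refine LinearMap.ext fun z => ?_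
    exact congrArg Prod.fst (LinearMap.congr_fun hc (z, 0))
  have hv := congrFun (congrArg Prod.snd (LinearMap.congr_fun hc (0, Pi.single 0 1))) 0
  have hCH := congrFun (congrFun (add_det_smul_inv r g) 0) 0
  simp [R, d, Matrix.toLinAlgEquiv'_apply] at hv hCH
  rw [← hv, ← hCH]

/-- Cayley–Hamilton for a Galois module of exponent `p` with the quadratic relation at almost all
Frobenius elements. -/
theorem cayley_of_relation {M : Type*} [AddCommGroup M] {p : ℕ} [Fact p.Prime]
    [Module (ZMod p) M] (act : Gal →* AddMonoid.End M)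
    (hlevel : ∃ L : IntermediateField ℚ (AlgebraicClosure ℚ), FiniteDimensional ℚ L ∧
      ∀ g : Gal, (∀ x ∈ L, g x = x) → ∀ m, act g m = m)
    (r : Gal →* Matrix (Fin 2) (Fin 2) (ZMod p)) (hr : GaloisFactorsThroughFiniteLevel r)
    (S : Finset ℕ)
    (hrel : ∀ ℓ : ℕ, ℓ.Prime → ℓ ∉ S → ∀ A : ValuationSubring (AlgebraicClosure ℚ),
      A.LiesOverPrime ℓ → ∀ φ : Gal, A.IsFrobeniusAt φ ℓ →
        ∀ m, act φ (act φ m) + (r φ).det.val • m = (r φ).trace.val • act φ m)
    (σ : Gal) (m : M) :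
    act σ (act σ m) + (r σ).det.val • m = (r σ).trace.val • act σ m := by
  have : NeZero p := ⟨(Fact.out : p.Prime).ne_zero⟩
  have hsmul : ∀ (c : ZMod p) (x : M), c • x = c.val • x := fun c x => by
    conv_lhs => rw [← ZMod.natCast_zmod_val c, Nat.cast_smul_eq_nsmul]
  let Rm : Gal →* Module.End (ZMod p) M :=
    { toFun := fun g => (act g).toZModLinearMap p
      map_one' := LinearMap.ext fun z => by
        show act 1 z = z
        rw [map_one]; rfl
      map_mul' := fun g h => LinearMap.ext fun z => by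
        show act (g * h) z = act g (act h z)
        rw [map_mul]; rfl }
  have happ : ∀ (g : Gal) (z : M), Rm g z = act g z := fun _ _ => rfl
  obtain ⟨L₁, hL₁, hfix₁⟩ := hlevel
  obtain ⟨L₂, hL₂, hfix₂⟩ := hr
  have := hL₁
  have := hL₂
  obtain ⟨ℓ, hℓ, hℓS, A, hA, φ, hφ, b, hb⟩ :=
    HeckeDatum.frobeniusPowDense (L₁ ⊔ L₂) inferInstance σ S
  have hF : Rm φ * Rm φ - (r φ).trace • Rm φ + (r φ).det • (1 : Module.End (ZMod p) M) = 0 :=
    LinearMap.ext fun z => by
      simp only [LinearMap.add_apply, LinearMap.sub_apply, LinearMap.smul_apply,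
        Module.End.mul_apply, Module.End.one_apply, LinearMap.zero_apply, happ, hsmul]
      rw [sub_add_eq_add_sub, sub_eq_zero]
      exact hrel ℓ hℓ hℓS A hA φ hφ z
  have hg : ∀ x ∈ L₁ ⊔ L₂, ((φ ^ b)⁻¹ * σ) x = x := fun x hx => by
    rw [AlgEquiv.mul_apply, hb x hx]; exact (φ ^ b).symm_apply_apply x
  have hρ1 : Rm ((φ ^ b)⁻¹ * σ) = 1 := LinearMap.ext fun z =>
    hfix₁ _ (fun x hx => hg x (le_sup_left (b := L₂) hx)) z
  have hr1 : r ((φ ^ b)⁻¹ * σ) = 1 :=
    hfix₂ _ fun x hx => hg x (le_sup_right (a := L₁) hx)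
  have hρσ : Rm σ = Rm (φ ^ b) := by
    rw [← mul_one (Rm (φ ^ b)), ← hρ1, ← map_mul, mul_inv_cancel_left]
  have hrσ : r σ = r (φ ^ b) := by
    rw [← mul_one (r (φ ^ b)), ← hr1, ← map_mul, mul_inv_cancel_left]
  have hρi : Rm (φ ^ b)⁻¹ = Rm σ⁻¹ := by
    have h1 : Rm σ * Rm σ⁻¹ = 1 := by rw [← map_mul, mul_inv_cancel, map_one]
    rw [← mul_one (Rm (φ ^ b)⁻¹), ← h1, ← mul_assoc, hρσ, ← map_mul, inv_mul_cancel, map_one,
      one_mul]
  have hc := pow_relation Rm r hF b
  rw [hρi, ← hρσ, ← hrσ] at hc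
  have e : Rm σ⁻¹ (Rm σ m) = m := by
    rw [← Module.End.mul_apply, ← map_mul, inv_mul_cancel, map_one, Module.End.one_apply]
  have h := LinearMap.congr_fun hc (Rm σ m)
  simp only [LinearMap.add_apply, LinearMap.smul_apply, e, Module.End.one_apply, hsmul] at h
  exact h

variable {N : ℕ} [NeZero N] {p : ℕ}

/-- The `p`-torsion points with given eigenvalues outside `S`. -/
def eigenPoints (N : ℕ) [NeZero N] (p : ℕ) (S : Finset ℕ) (a : ℕ → ℤ) : AddSubgroup (JZero N) where
  carrier := {z | p • z = 0 ∧ ∀ ℓ : Nat.Primes, (ℓ : ℕ) ∉ S → heckeOperatorBar N ℓ z = a ℓ • z}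
  zero_mem' := ⟨smul_zero _, fun ℓ _ => by rw [map_zero, smul_zero]⟩
  add_mem' := fun {z w} hz hw => ⟨by rw [nsmul_add, hz.1, hw.1, add_zero],
    fun ℓ hℓ => by rw [map_add, hz.2 ℓ hℓ, hw.2 ℓ hℓ]; exact (smul_add (a ℓ) z w).symm⟩
  neg_mem' := fun {z} hz => ⟨by rw [neg_nsmul, hz.1, neg_zero],
    fun ℓ hℓ => by rw [map_neg, hz.2 ℓ hℓ]; exact (smul_neg (a ℓ) z).symm⟩

variable {S : Finset ℕ} {a : ℕ → ℤ}

/-- Galois preserves the eigen points. -/
theorem smul_mem_eigenPoints (σ : Gal) {z : JZero N} (hz : z ∈ eigenPoints N p S a) :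
    σ • z ∈ eigenPoints N p S a :=
  ⟨by rw [nsmul_galois_smul, hz.1]; exact (DistribSMul.toAddMonoidHom (JZero N) σ).map_zero,
    fun ℓ hℓ => by
      rw [← EisensteinDescent.galois_smul_heckeOperatorBar, hz.2 ℓ hℓ]
      exact map_zsmul (DistribSMul.toAddMonoidHom (JZero N) σ) _ _⟩

/-- The Galois action on the eigen points. -/
def eigenAct (N : ℕ) [NeZero N] (p : ℕ) (S : Finset ℕ) (a : ℕ → ℤ) :
    Gal →* AddMonoid.End (eigenPoints N p S a) where
  toFun g := AddMonoidHom.mk'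
    (fun z : eigenPoints N p S a =>
      (⟨g • (z : JZero N), smul_mem_eigenPoints g z.2⟩ : eigenPoints N p S a))
    fun z w => Subtype.ext (smul_add g (z : JZero N) (w : JZero N))
  map_one' := AddMonoidHom.ext fun z => Subtype.ext (one_smul Gal (z : JZero N))
  map_mul' g h := AddMonoidHom.ext fun z => Subtype.ext (mul_smul g h (z : JZero N))

/-- An eigen torsion point satisfies the characteristic polynomial of every Galois element. -/
theorem cayley_hamilton_of_eigen [Fact p.Prime] (r : Gal →* Matrix (Fin 2) (Fin 2) (ZMod p))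
    (hr : GaloisFactorsThroughFiniteLevel r)
    (hfrob : ∀ ℓ : ℕ, ℓ.Prime → ℓ ∉ S → ∀ A : ValuationSubring (AlgebraicClosure ℚ),
      A.LiesOverPrime ℓ → ∀ φ : Gal, A.IsFrobeniusAt φ ℓ →
        (r φ).trace = (a ℓ : ZMod p) ∧ (r φ).det = (ℓ : ZMod p))
    {y : JZero N} (hy : y ∈ eigenPoints N p S a) (σ : Gal) :
    σ • σ • y + (r σ).det.val • y = (r σ).trace.val • (σ • y) := by
  have hp : p.Prime := Fact.out
  have : NeZero p := ⟨hp.ne_zero⟩
  obtain ⟨L, hL, hfix⟩ := JacCompare.exists_finiteLevel (N := N) hp 1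
  let : Module (ZMod p) (eigenPoints N p S a) :=
    AddCommGroup.zmodModule (G := ↥(eigenPoints N p S a)) fun z => Subtype.ext z.2.1
  have h := cayley_of_relation (M := eigenPoints N p S a) (eigenAct N p S a)
    ⟨L, hL, fun g hg z => Subtype.ext (hfix g hg _ (by rw [pow_one]; exact z.2.1))⟩
    r hr (S ∪ insert p N.primeFactors) (fun ℓ hℓ hℓS A hA φ hφ z => ?_) σ ⟨y, hy⟩
  · exact congrArg Subtype.val h
  simp only [Finset.mem_union, Finset.mem_insert, not_or] at hℓS
  obtain ⟨hℓS, hℓp, hℓN⟩ := hℓS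
  have hℓN' : ¬ ℓ ∣ N := fun h => hℓN (Nat.mem_primeFactors.mpr ⟨hℓ, h, NeZero.ne N⟩)
  obtain ⟨htr, hdet⟩ := hfrob ℓ hℓ hℓS A hA φ hφ
  have hmod : ∀ (c : ZMod p) (k : ℤ), (k : ZMod p) = c → ∀ w : eigenPoints N p S a,
      c.val • (w : JZero N) = k • (w : JZero N) := fun c k hk w => by
    obtain ⟨t, ht⟩ : (p : ℤ) ∣ k - c.val := by
      rw [← ZMod.intCast_zmod_eq_zero_iff_dvd]
      push_cast
      rw [ZMod.natCast_zmod_val, hk, sub_self]
    rw [show k = (c.val : ℤ) + t * p by linear_combination ht, add_zsmul, mul_zsmul, natCast_zsmul,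
      natCast_zsmul, w.2.1, zsmul_zero, add_zero]
  have h := frobenius_relation_torsion hp 1 (x := (z : JZero N)) (by rw [pow_one]; exact z.2.1)
    ⟨ℓ, hℓ⟩ hℓN' hℓp hA hφ
  rw [(smul_mem_eigenPoints φ z.2).2 ⟨ℓ, hℓ⟩ hℓS, sub_add_eq_add_sub, sub_eq_zero] at h
  refine Subtype.ext ?_
  rw [AddSubgroup.coe_add, AddSubgroup.coe_nsmul, AddSubgroup.coe_nsmul,
    hmod _ (a ℓ) htr.symm (eigenAct N p S a φ z),
    hmod _ (ℓ : ℤ) (by rw [hdet]; push_cast; rfl) z, natCast_zsmul]
  exact h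

/-- A Galois element acting on a nonzero eigen point by a scalar has that scalar as eigenvalue. -/
theorem eq_zero_of_smul_eq [Fact p.Prime] (r : Gal →* Matrix (Fin 2) (Fin 2) (ZMod p))
    (hr : GaloisFactorsThroughFiniteLevel r)
    (hfrob : ∀ ℓ : ℕ, ℓ.Prime → ℓ ∉ S → ∀ A : ValuationSubring (AlgebraicClosure ℚ),
      A.LiesOverPrime ℓ → ∀ φ : Gal, A.IsFrobeniusAt φ ℓ →
        (r φ).trace = (a ℓ : ZMod p) ∧ (r φ).det = (ℓ : ZMod p))
    {y : JZero N} (hy : y ∈ eigenPoints N p S a) {σ : Gal} {c : ℕ} (hσ : σ • y = c • y)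
    (hc : (c : ZMod p) ^ 2 - (r σ).trace * c + (r σ).det ≠ 0) : y = 0 := by
  have hp : p.Prime := Fact.out
  have : NeZero p := ⟨hp.ne_zero⟩
  have h := cayley_hamilton_of_eigen r hr hfrob hy σ
  rw [hσ, ← nsmul_galois_smul, hσ, smul_smul, smul_smul, ← sub_eq_zero] at h
  set n : ℤ := (c * c : ℕ) + (r σ).det.val - ((r σ).trace.val * c : ℕ) with hn
  have hn0 : n • y = 0 := by
    rw [hn, sub_smul, add_smul, natCast_zsmul, natCast_zsmul, natCast_zsmul]; exact h
  have hndvd : ¬ (p : ℤ) ∣ n := by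
    rw [← ZMod.intCast_zmod_eq_zero_iff_dvd]
    intro h0
    refine hc ?_
    rw [hn] at h0
    push_cast at h0
    rw [ZMod.natCast_zmod_val, ZMod.natCast_zmod_val] at h0
    linear_combination h0
  obtain ⟨u, v, huv⟩ := ((Nat.prime_iff_prime_int.mp hp).coprime_iff_not_dvd).mpr hndvd
  have hp0 : (p : ℤ) • y = 0 := by rw [natCast_zsmul]; exact hy.1
  calc y = (u * p + v * n) • y := by rw [huv, one_zsmul]
    _ = u • ((p : ℤ) • y) + v • (n • y) := by rw [add_zsmul, mul_zsmul, mul_zsmul]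
    _ = 0 := by rw [hp0, hn0, zsmul_zero, zsmul_zero, add_zero]

end Fermat.Agent.OrdinaryExclusion
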