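import Fermat.Agent.OrdinaryCurve.Interface
import Fermat.Agent.OrdinaryCurve.Lang
import Mathlib.Topology.Algebra.Semigroup
import Mathlib.NumberTheory.Padics.ProperSpace
import Mathlib.Topology.Instances.Matrix

/-!
# Fixed vectors in a generalised eigenspace

Let `x` be a left eigenvector modulo `p` of commuting integral matrices `U`, `P i`, with eigenvalue
`≠ 0` for `U` and `0` for the `P i`.  A limit of powers gives an idempotent `e` over `ℤ_p` fixing
`x` on which the `P i` are topologically nilpotent; Lang's lemma for `U * e` gives a vector fixed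
by `U` composed with Frobenius, not divisible by `p`, on which the `P i` are topologically
nilpotent.
-/

set_option autoImplicit false

noncomputable section

open Matrix

namespace Fermat.Agent.OrdinaryExclusion

open OrdinaryCurve

variable {p : ℕ} [hp : Fact p.Prime]

section Idempotent

variable {n : Type*} [Fintype n] [DecidableEq n]

/-- Two elements congruent modulo `p` have the same image in characteristic `p`. -/
theorem map_eq_of_norm_sub_lt {k : Type*} [Ring k] [CharP k p] (f : ℤ_[p] →+* k) {a b : ℤ_[p]}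
    (h : ‖a - b‖ < 1) : f a = f b := by
  obtain ⟨c, hc⟩ : (p : ℤ_[p]) ∣ a - b := by
    rw [← PadicInt.norm_lt_one_iff_dvd]
    exact h
  rw [← sub_eq_zero, ← map_sub, hc, map_mul, map_natCast, CharP.cast_eq_zero, zero_mul]

/-- An idempotent killed in the limit by powers of `A`, with all symmetries of `A`, fixing the left
kernel of `A`. -/
theorem exists_idempotent {k : Type*} [Field k] [CharP k p] (f : ℤ_[p] →+* k)
    (A : Matrix n n ℤ_[p]) (x : n → k) (hx : x ᵥ* A.map f = 0) :
    ∃ e : Matrix n n ℤ_[p], e * e = e ∧ (∀ B, Commute B A → Commute B e) ∧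
      x ᵥ* e.map f = x ∧
      ∀ N : ℕ, ∃ (j : ℕ) (D : Matrix n n ℤ_[p]), A ^ j * e = (p : ℤ_[p]) ^ N • D := by
  set T : Set (Matrix n n ℤ_[p]) := Set.range fun m : ℕ => A ^ (m + 1) with hT
  have : CompactSpace (Matrix n n ℤ_[p]) :=
    inferInstanceAs (CompactSpace (n → n → ℤ_[p]))
  obtain ⟨q, hq, hqq⟩ := exists_idempotent_in_compact_subsemigroup
    (M := Matrix n n ℤ_[p]) (fun r => continuous_id.mul continuous_const) (closure T)
    ⟨A, subset_closure ⟨0, pow_one A⟩⟩ isClosed_closure.isCompact (fun a ha b hb =>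
      map_mem_closure₂ continuous_mul ha hb fun a ha b hb => by
        obtain ⟨i, rfl⟩ := ha
        obtain ⟨j, rfl⟩ := hb
        exact ⟨i + j + 1, by rw [← pow_add]; ring_nf⟩)
  have hclose : ∀ N : ℕ, ∃ (j : ℕ) (D : Matrix n n ℤ_[p]),
      A ^ (j + 1) = q + (p : ℤ_[p]) ^ N • D := by
    intro N
    have hopen : IsOpen {B : Matrix n n ℤ_[p] | ∀ i j, ‖B i j - q i j‖ < (p : ℝ) ^ (-(N : ℤ))} := by
      simp only [Set.ofPred_forall]
      refine isOpen_iInter_of_finite fun i => isOpen_iInter_of_finite fun j => ?_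
      exact isOpen_lt ((continuous_apply_apply i j).sub continuous_const).norm continuous_const
    obtain ⟨B, hB, m, rfl⟩ := mem_closure_iff.mp hq _ hopen (fun i j => by
      rw [sub_self, norm_zero]
      exact zpow_pos (by exact_mod_cast hp.out.pos) _)
    have hdvd : ∀ i j, (p : ℤ_[p]) ^ N ∣ (A ^ (m + 1)) i j - q i j := fun i j =>
      Ideal.mem_span_singleton.mp ((PadicInt.norm_le_pow_iff_mem_span_pow _ N).mp (hB i j).le)
    choose D hD using hdvd
    exact ⟨m, Matrix.of D, Matrix.ext fun i j => by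
      rw [Matrix.add_apply, Matrix.smul_apply, Matrix.of_apply, smul_eq_mul, ← hD i j,
        add_sub_cancel]⟩
  refine ⟨1 - q, ?_, fun B hB => (Commute.one_right B).sub_right ?_, ?_, fun N => ?_⟩
  · simp [sub_mul, mul_sub, hqq]
  · have hmem : T ⊆ {C | B * C = C * B} := by
      rintro _ ⟨m, rfl⟩
      exact (hB.pow_right (m + 1)).eq
    exact closure_minimal hmem
      (isClosed_eq (continuous_const.mul continuous_id) (continuous_id.mul continuous_const)) hq
  · obtain ⟨j, D, hD⟩ := hclose 1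
    have hq0 : q.map f = (A ^ (j + 1)).map f := Matrix.ext fun a b => by
      rw [map_apply, map_apply, hD, Matrix.add_apply, Matrix.smul_apply, smul_eq_mul, pow_one,
        map_add, map_mul, map_natCast, CharP.cast_eq_zero, zero_mul, add_zero]
    have h1 : (1 - q).map f = 1 - q.map f := by
      rw [Matrix.map_sub _ (map_sub f), Matrix.map_one _ (map_zero f) (map_one f)]
    rw [h1, vecMul_sub, vecMul_one, hq0, pow_succ', Matrix.map_mul, ← vecMul_vecMul, hx,
      zero_vecMul, sub_zero]
  · obtain ⟨j, D, hD⟩ := hclose N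
    exact ⟨j + 1, D * (1 - q), by
      rw [hD, add_mul, mul_sub, hqq, mul_one, sub_self, zero_add, smul_mul_assoc]⟩

/-- The product of the idempotents of finitely many commuting matrices. -/
theorem exists_idempotent_finset {ι : Type*} {k : Type*} [Field k] [CharP k p] (f : ℤ_[p] →+* k)
    (A : ι → Matrix n n ℤ_[p]) (hA : ∀ i j, Commute (A i) (A j)) (x : n → k)
    (hx : ∀ i, x ᵥ* (A i).map f = 0) (s : Finset ι) :
    ∃ e : Matrix n n ℤ_[p], e * e = e ∧
      (∀ B, (∀ i, Commute B (A i)) → Commute B e) ∧ x ᵥ* e.map f = x ∧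
      ∀ i ∈ s, ∀ N : ℕ, ∃ (j : ℕ) (D : Matrix n n ℤ_[p]), A i ^ j * e = (p : ℤ_[p]) ^ N • D := by
  classical
  induction s using Finset.induction with
  | empty =>
    exact ⟨1, one_mul 1, fun B _ => Commute.one_right B,
      by rw [Matrix.map_one _ (map_zero f) (map_one f), vecMul_one],
      fun i hi => absurd hi (Finset.notMem_empty i)⟩
  | insert a s _ ih =>
    obtain ⟨e, hee, hec, hxe, hen⟩ := ih
    obtain ⟨q, hqq, hqc, hxq, hqn⟩ := exists_idempotent f (A a) x (hx a)
    have hqe : Commute q e := (hqc e (hec (A a) (hA a)).symm).symm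
    refine ⟨q * e, ?_, fun B hB => (hqc B (hB a)).mul_right (hec B hB), ?_, fun i hi N => ?_⟩
    · rw [mul_assoc, ← mul_assoc e q e, ← hqe.eq, mul_assoc q e e, hee, ← mul_assoc, hqq]
    · rw [Matrix.map_mul, ← vecMul_vecMul, hxq, hxe]
    · rcases Finset.mem_insert.mp hi with rfl | hi
      · obtain ⟨j, D, hD⟩ := hqn N
        exact ⟨j, D * e, by rw [← mul_assoc, hD, smul_mul_assoc]⟩
      · obtain ⟨j, D, hD⟩ := hen i hi N
        exact ⟨j, D * q, by rw [hqe.eq, ← mul_assoc, hD, smul_mul_assoc]⟩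

end Idempotent

variable (p)

/-- `ℤ_p` inside the completed unramified ring. -/
def toUnram : ℤ_[p] →+* unramHat p :=
  ((algebraMap (PadicAlgCl p) ℂ_[p]).comp (algebraMap ℤ_[p] (PadicAlgCl p))).codRestrict
    (unramHat p) fun x => coe_mem_unramHat p (Subalgebra.algebraMap_mem (unramRing p) x)

/-- Galois fixes the image of `ℤ_p`. -/
theorem unramGal_toUnram (g : PadicAlgCl p ≃ₐ[ℚ_[p]] PadicAlgCl p) (z : ℤ_[p]) :
    unramGal p g (toUnram p z) = toUnram p z := by
  refine Subtype.ext ?_
  rw [coe_unramGal]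
  show completeGal p g ((algebraMap ℤ_[p] (PadicAlgCl p) z : PadicAlgCl p) : ℂ_[p]) = _
  rw [completeGal_coe, localGalois_algebraMap_int]
  rfl

/-- Casting an integral matrix through `ℤ_p` is casting it directly. -/
theorem map_intCast_toUnram {m : Type*} (M : Matrix m m ℤ) :
    (M.map (Int.cast : ℤ → ℤ_[p])).map (toUnram p) = M.map (Int.cast : ℤ → unramHat p) :=
  Matrix.ext fun _ _ => map_intCast (toUnram p) _

variable {p} {r : ℕ}

/-- Matrices over `ℤ_p` commuting with `U` preserve the fixed vectors. -/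
theorem mulVec_mem_fixVectors {U : Matrix (Fin r) (Fin r) ℤ} {C : Matrix (Fin r) (Fin r) ℤ_[p]}
    (hC : Commute (U.map (Int.cast : ℤ → ℤ_[p])) C) {c : Fin r → unramHat p}
    (hc : c ∈ fixVectors p U) : C.map (toUnram p) *ᵥ c ∈ fixVectors p U := by
  have hσ : (fun i => unramFrob p ((C.map (toUnram p) *ᵥ c) i)) =
      C.map (toUnram p) *ᵥ fun i => unramFrob p (c i) := by
    funext i
    rw [RingHom.map_mulVec, Matrix.map_map]
    congr 2
    exact funext fun a => unramGal_toUnram p _ a
  change U.map (Int.cast : ℤ → unramHat p) *ᵥ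
    (fun i => unramFrob p ((C.map (toUnram p) *ᵥ c) i)) = _
  rw [hσ, mulVec_mulVec, ← map_intCast_toUnram p U, ← Matrix.map_mul, hC.eq, Matrix.map_mul,
    map_intCast_toUnram p U, ← mulVec_mulVec]
  exact congrArg _ hc

variable (p) in
/-- The reduction of `ℤ_p` into any field of characteristic `p` factors through `ZMod p`. -/
theorem map_eq_zero_iff_toZMod {k : Type*} [Field k] [CharP k p] (f : ℤ_[p] →+* k) (z : ℤ_[p]) :
    f z = 0 ↔ PadicInt.toZMod z = 0 := by
  have hlt : ‖z - (PadicInt.zmodRepr z : ℤ_[p])‖ < 1 :=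
    PadicInt.mem_nonunits.mp (PadicInt.sub_zmodRepr_mem z)
  rw [map_eq_of_norm_sub_lt f hlt, map_eq_of_norm_sub_lt PadicInt.toZMod hlt, map_natCast,
    map_natCast, CharP.cast_eq_zero_iff k p, CharP.cast_eq_zero_iff (ZMod p) p]

/-- **A fixed vector in a generalised eigenspace.** -/
theorem exists_fixVector {ι : Type*} (U : Matrix (Fin r) (Fin r) ℤ)
    (P : ι → Matrix (Fin r) (Fin r) ℤ) (hPP : ∀ i j, Commute (P i) (P j))
    (hUP : ∀ i, Commute U (P i)) {k : Type*} [Field k] [CharP k p] (x : Fin r → k) (hx0 : x ≠ 0)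
    {u : k} (hu : u ≠ 0) (hxU : x ᵥ* U.map (Int.cast : ℤ → k) = u • x)
    (hxP : ∀ i, x ᵥ* (P i).map (Int.cast : ℤ → k) = 0) (s : Finset ι) :
    ∃ c : fixVectors p U, (c : Fin r → unramHat p) ≠ 0 ∧
      ∀ i ∈ s, ∀ N : ℕ, ∃ (j : ℕ) (d : fixVectors p U),
        (P i ^ j).map (Int.cast : ℤ → unramHat p) *ᵥ (c : Fin r → unramHat p) =
          ((p : unramHat p) ^ N) • (d : Fin r → unramHat p) := by
  classical
  let f : ℤ_[p] →+* k := (ZMod.castHom dvd_rfl k).comp PadicInt.toZMod
  have hf : ∀ M : Matrix (Fin r) (Fin r) ℤ,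
      (M.map (Int.cast : ℤ → ℤ_[p])).map f = M.map (Int.cast : ℤ → k) := fun M =>
    Matrix.ext fun i j => map_intCast f _
  obtain ⟨e, hee, hec, hxe, hen⟩ := exists_idempotent_finset f
    (fun i => (P i).map (Int.cast : ℤ → ℤ_[p]))
    (fun i j => (hPP i j).map (Int.castRingHom ℤ_[p]).mapMatrix) x
    (fun i => by rw [hf]; exact hxP i) s
  set U₁ := U.map (Int.cast : ℤ → ℤ_[p])
  have hUe : Commute U₁ e := hec _ fun i => (hUP i).map (Int.castRingHom ℤ_[p]).mapMatrix
  have hnil : ∀ m, (((U₁ * e).map (toUnram p)).map (unramRes p)) ^ m ≠ 0 := by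
    intro m h0
    refine hx0 ?_
    have hk : ((U₁ * e) ^ m).map f = 0 := by
      ext a b
      have hab := congrFun (congrFun h0 a) b
      rw [Matrix.map_map, show ((U₁ * e).map (unramRes p ∘ toUnram p)) =
        ((unramRes p).comp (toUnram p)).mapMatrix (U₁ * e) from rfl, ← map_pow] at hab
      rw [map_apply, Matrix.zero_apply, map_eq_zero_iff_toZMod p f,
        ← map_eq_zero_iff_toZMod p ((unramRes p).comp (toUnram p))]
      exact hab
    have hpow : ∀ i : ℕ, x ᵥ* ((U₁ * e) ^ i).map f = u ^ i • x := by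
      intro i
      induction i with
      | zero =>
        rw [pow_zero, pow_zero, one_smul, Matrix.map_one _ (map_zero f) (map_one f), vecMul_one]
      | succ i ih =>
        rw [pow_succ, Matrix.map_mul, ← vecMul_vecMul, ih, Matrix.map_mul, ← vecMul_vecMul,
          smul_vecMul, hf U, hxU, smul_vecMul, smul_vecMul, hxe, smul_smul, ← pow_succ]
    have := hpow m
    rw [hk, vecMul_zero] at this
    exact (smul_eq_zero.mp this.symm).resolve_left (pow_ne_zero m hu)
  obtain ⟨c, ⟨j₀, hj₀⟩, hc⟩ := exists_langDefect_eq_zero (unramFrob p) (unramRes p)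
    (unramRes_unramFrob p) (unramRes_surjective p) (dvd_of_unramRes_eq_zero p) (exists_limit p)
    (eq_zero_of_forall_dvd p) ((U₁ * e).map (toUnram p)) 0
    (fun i j => unramGal_toUnram p _ _) hnil
  rw [zero_mulVec, smul_zero, add_zero, Matrix.map_mul] at hc
  have hec' : e.map (toUnram p) *ᵥ c = c := by
    conv_lhs => rw [hc]
    rw [mulVec_mulVec, ← Matrix.map_mul, ← Matrix.map_mul, ← mul_assoc, ← hUe.eq, mul_assoc, hee,
      Matrix.map_mul, ← hc]
  have hσe : (fun i => unramFrob p (c i)) = e.map (toUnram p) *ᵥ fun i => unramFrob p (c i) := by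
    conv_lhs => rw [← hec']
    funext i
    rw [RingHom.map_mulVec, Matrix.map_map]
    congr 2
    exact funext fun a => unramGal_toUnram p _ a
  have hfix : c ∈ fixVectors p U := by
    change U.map (Int.cast : ℤ → unramHat p) *ᵥ (fun i => unramFrob p (c i)) = c
    rw [hσe, mulVec_mulVec, ← map_intCast_toUnram p U, ← hc]
  refine ⟨⟨c, hfix⟩, fun h0 => hj₀ ?_, fun i hi N => ?_⟩
  · rw [show c j₀ = 0 from congrFun h0 j₀, map_zero]
  · obtain ⟨j, D, hD⟩ := hen i hi N
    have hPe : Commute U₁ ((P i).map (Int.cast : ℤ → ℤ_[p]) ^ j * e) :=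
      (((hUP i).map (Int.castRingHom ℤ_[p]).mapMatrix).pow_right j).mul_right hUe
    rw [hD] at hPe
    have hUD : Commute U₁ D := by
      have h := hPe.eq
      rw [mul_smul_comm, smul_mul_assoc] at h
      exact smul_right_injective _ (pow_ne_zero N (Nat.cast_ne_zero.mpr hp.out.ne_zero)) h
    refine ⟨j, ⟨_, mulVec_mem_fixVectors hUD hfix⟩, ?_⟩
    show (P i ^ j).map (Int.cast : ℤ → unramHat p) *ᵥ c =
        (p : unramHat p) ^ N • (D.map (toUnram p) *ᵥ c)
    rw [← map_intCast_toUnram p (P i ^ j)]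
    conv_lhs => rw [← hec']
    rw [mulVec_mulVec, ← Matrix.map_mul,
      show (P i ^ j).map (Int.cast : ℤ → ℤ_[p]) = (P i).map (Int.cast : ℤ → ℤ_[p]) ^ j from
        Matrix.map_pow (P i) (Int.castRingHom ℤ_[p]) j,
      hD, ← smul_mulVec]
    congr 1
    ext a b
    simp

end Fermat.Agent.OrdinaryExclusion
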