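import Fermat.Agent.OrdinaryExclusion.Basis
import Fermat.Agent.OrdinaryExclusion.Fixed
import Fermat.Agent.OrdinaryExclusion.Eigen
import Fermat.Agent.PoitouTate.LocalDecomp
import Fermat.Agent.GaloisBasics.Galois

/-!
# The ordinary line modulo a prime of the eigenvalues

Let `f` be a normalised eigenform of level `N`, `p ∣ N`, whose residual eigenvalues are `a ℓ` and
whose residual `U_p` eigenvalue is not zero.  Granting `OrdinaryTate p N`, some nonzero point of
`J₀(N)[p]` has the eigenvalues `a ℓ` and is multiplied by the cyclotomic character under inertia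
at `p`.  Hence the residual representation has no inertia element without eigenvalue in `𝔽_p`.
-/

set_option autoImplicit false

noncomputable section

open Matrix ModularCurve ModularFormClass

namespace Fermat.Agent.OrdinaryExclusion

open OrdinaryCurve
open Fermat.Agent.CarayolReduction (tateModule tateModule_pow_smul)

local notation "Gal" => AlgebraicClosure ℚ ≃ₐ[ℚ] AlgebraicClosure ℚ

/-- A point killed by powers of commuting operators of an image gives one killed by all. -/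
theorem exists_killed {D J ι : Type*} [AddCommGroup D] [AddCommGroup J] (ev : D →+ J)
    (P : ι → D →+ D) (Op : ι → J →+ J) (hop : ∀ i d, ev (P i d) = Op i (ev d))
    (hPP : ∀ i j d, P i (P j d) = P j (P i d)) (s : Finset ι) (d₀ : D) (h0 : ev d₀ ≠ 0)
    (hnil : ∀ i ∈ s, ∃ j, ev ((P i)^[j] d₀) = 0) :
    ∃ d, ev d ≠ 0 ∧ (∀ n : ℤ, n • ev d₀ = 0 → n • ev d = 0) ∧
      ∀ i ∈ s, ev (P i d) = 0 := by
  classical
  suffices h : ∀ t ⊆ s, ∃ d, ev d ≠ 0 ∧ (∀ n : ℤ, n • ev d₀ = 0 → n • ev d = 0) ∧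
      (∀ i ∈ t, ev (P i d) = 0) ∧ ∀ i ∈ s, ∃ j, ev ((P i)^[j] d) = 0 by
    obtain ⟨d, h1, h2, h3, -⟩ := h s subset_rfl
    exact ⟨d, h1, h2, h3⟩
  intro t ht
  induction t using Finset.induction with
  | empty => exact ⟨d₀, h0, fun _ h => h, fun i hi => absurd hi (Finset.notMem_empty i), hnil⟩
  | insert a t _ ih =>
    obtain ⟨has, hts⟩ := Finset.insert_subset_iff.mp ht
    obtain ⟨d, hd, hann, hkill, hn⟩ := ih hts
    obtain ⟨m, hm, hmin⟩ : ∃ m, ev ((P a)^[m + 1] d) = 0 ∧ ev ((P a)^[m] d) ≠ 0 := by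
      obtain ⟨j, hj, hjmin⟩ : ∃ j, ev ((P a)^[j] d) = 0 ∧ ∀ i < j, ev ((P a)^[i] d) ≠ 0 :=
        ⟨Nat.find (hn a has), Nat.find_spec (hn a has), fun i hi => Nat.find_min (hn a has) hi⟩
      obtain ⟨m, rfl⟩ := Nat.exists_eq_succ_of_ne_zero (n := j) fun h0 => hd (by subst h0; exact hj)
      exact ⟨m, hj, hjmin m (Nat.lt_succ_self m)⟩
    have hiter : ∀ k e, ev e = 0 → ev ((P a)^[k] e) = 0 := by
      intro k
      induction k with
      | zero => exact fun e he => he
      | succ k ihk =>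
        intro e he
        rw [Function.iterate_succ_apply', hop, ihk e he, map_zero]
    have hswap : ∀ i k e, P i ((P a)^[k] e) = (P a)^[k] (P i e) := by
      intro i k
      induction k with
      | zero => exact fun e => rfl
      | succ k ihk =>
        intro e
        rw [Function.iterate_succ_apply', Function.iterate_succ_apply', hPP, ihk]
    have hz : ∀ (n : ℤ) k, n • (P a)^[k] d = (P a)^[k] (n • d) := by
      intro n k
      induction k with
      | zero => rfl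
      | succ k ihk =>
        rw [Function.iterate_succ_apply', Function.iterate_succ_apply', ← ihk, map_zsmul]
    refine ⟨(P a)^[m] d, hmin, fun n h => ?_, fun i hi => ?_, fun i hi => ?_⟩
    · rw [← map_zsmul, hz]
      exact hiter m _ (by rw [map_zsmul]; exact hann n h)
    · rcases Finset.mem_insert.mp hi with rfl | hi
      · rw [← Function.iterate_succ_apply' (P i)]
        exact hm
      · rw [hswap]; exact hiter m _ (hkill i hi)
    · obtain ⟨k, hk⟩ := hn i hi
      refine ⟨k, ?_⟩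
      have hk2 : ∀ k e, (P i)^[k] ((P a)^[m] e) = (P a)^[m] ((P i)^[k] e) := by
        intro k
        induction k with
        | zero => exact fun e => rfl
        | succ k ihk =>
          intro e
          rw [Function.iterate_succ_apply', Function.iterate_succ_apply', ihk, hswap]
      rw [hk2]
      exact hiter m _ hk

/-- Roots of unity of order dividing `p ^ n`: an exponent for `σ`, unique modulo `p`. -/
theorem exists_exponent {p : ℕ} (hp : p.Prime) (σ : Gal) {a₀ : ℕ}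
    (ha₀ : ∀ μ : AlgebraicClosure ℚ, μ ^ p = 1 → σ μ = μ ^ a₀) {n : ℕ} (hn : n ≠ 0) :
    ∃ a : ℕ, (∀ μ : AlgebraicClosure ℚ, μ ^ p ^ n = 1 → σ μ = μ ^ a) ∧
      (a : ZMod p) = (a₀ : ZMod p) := by
  have : NeZero (p ^ n) := ⟨pow_ne_zero _ hp.ne_zero⟩
  obtain ⟨ζ, hζ⟩ := HasEnoughRootsOfUnity.exists_primitiveRoot (AlgebraicClosure ℚ) (p ^ n)
  obtain ⟨a, -, ha⟩ := hζ.eq_pow_of_pow_eq_one (ξ := σ ζ)
    (by rw [← map_pow, hζ.pow_eq_one, map_one])
  refine ⟨a, fun μ hμ => ?_, ?_⟩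
  · obtain ⟨i, -, rfl⟩ := hζ.eq_pow_of_pow_eq_one hμ
    rw [map_pow, ← ha, ← pow_mul, ← pow_mul, mul_comm]
  obtain ⟨m, rfl⟩ := Nat.exists_eq_succ_of_ne_zero hn
  have hζ' : IsPrimitiveRoot (ζ ^ p ^ m) p := hζ.pow (pow_pos hp.pos _) (pow_succ p m)
  have h1 : (ζ ^ p ^ m) ^ a = (ζ ^ p ^ m) ^ a₀ := by
    rw [← ha₀ _ hζ'.pow_eq_one, map_pow, ← ha, ← pow_mul, ← pow_mul, mul_comm]
  have hred : ∀ b : ℕ, (ζ ^ p ^ m) ^ b = (ζ ^ p ^ m) ^ (b % p) := fun b => by
    conv_lhs => rw [← Nat.mod_add_div b p]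
    rw [pow_add, pow_mul, hζ'.pow_eq_one, one_pow, mul_one]
  rw [hred a, hred a₀] at h1
  exact (ZMod.natCast_eq_natCast_iff' _ _ _).mpr
    (hζ'.pow_inj (Nat.mod_lt _ hp.pos) (Nat.mod_lt _ hp.pos) h1)

variable {p N : ℕ} [hp : Fact p.Prime]

omit hp in
/-- A nonzero Tate vector has a component which is nonzero and killed by `p`. -/
theorem exists_component_ne_zero {J : Type*} [AddCommGroup J] {x : tateModule J p} (hx : x ≠ 0) :
    ∃ n, n ≠ 0 ∧ x.1 n ≠ 0 ∧ p • x.1 n = 0 := by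
  classical
  have h : ∃ n, x.1 n ≠ 0 := by
    by_contra h
    push Not at h
    exact hx (Subtype.ext (funext h))
  have hn := Nat.find_spec h
  have hn0 : Nat.find h ≠ 0 := fun h0 => hn (by rw [h0]; exact x.2.1)
  obtain ⟨m, hm⟩ := Nat.exists_eq_succ_of_ne_zero hn0
  refine ⟨Nat.find h, hn0, hn, ?_⟩
  rw [hm, x.2.2 m]
  exact not_not.mp (Nat.find_min h (by omega : m < Nat.find h))

variable [NeZero N]

/-- A left eigenvector of the Hecke matrix `M` with eigenvalue `a` is killed by `M - a`. -/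
theorem vecMul_sub_smul_eq_zero {n : Type*} [Fintype n] [DecidableEq n] {k : Type*} [Field k]
    {x : n → k} {M : Matrix n n ℤ} {a : ℤ}
    (h : x ᵥ* M.map (Int.cast : ℤ → k) = (a : k) • x) :
    x ᵥ* (M - a • 1).map (Int.cast : ℤ → k) = 0 := by
  have e : (M - a • 1).map (Int.cast : ℤ → k) = M.map (Int.cast : ℤ → k) - (a : k) • 1 := by
    ext s t
    by_cases h : s = t <;> simp [h, Matrix.intCast_apply]
  rw [e, vecMul_sub, h, vecMul_smul, vecMul_one, sub_self]

section fixAct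

variable {r : ℕ} {U : Matrix (Fin r) (Fin r) ℤ}

/-- The action on the fixed vectors of an integral matrix commuting with `U`. -/
def fixAct (A : Matrix (Fin r) (Fin r) ℤ) (hA : Commute U A) :
    fixVectors p U →+ fixVectors p U :=
  AddMonoidHom.mk' (fun d => ⟨A.map (Int.cast : ℤ → unramHat p) *ᵥ (d : Fin r → unramHat p), by
    rw [← map_intCast_toUnram p A]
    exact mulVec_mem_fixVectors (hA.map (Int.castRingHom ℤ_[p]).mapMatrix) d.2⟩)
    fun d e => Subtype.ext (by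
      show A.map (Int.cast : ℤ → unramHat p) *ᵥ ((d : Fin r → unramHat p) + e) = _
      exact mulVec_add _ _ _)

/-- `fixAct` on underlying vectors. -/
theorem coe_fixAct (A : Matrix (Fin r) (Fin r) ℤ) (hA : Commute U A) (d : fixVectors p U) :
    (fixAct A hA d : Fin r → unramHat p) = A.map (Int.cast : ℤ → unramHat p) *ᵥ d := rfl

/-- Iterates of `fixAct` are given by powers of the matrix. -/
theorem coe_iterate_fixAct (A : Matrix (Fin r) (Fin r) ℤ) (hA : Commute U A) (j : ℕ)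
    (d : fixVectors p U) : ((fixAct A hA)^[j] d : Fin r → unramHat p) =
      (A ^ j).map (Int.cast : ℤ → unramHat p) *ᵥ (d : Fin r → unramHat p) := by
  induction j with
  | zero => simp [Matrix.map_one]
  | succ j ih =>
    rw [Function.iterate_succ_apply', coe_fixAct, ih, mulVec_mulVec, pow_succ',
      show (A * A ^ j).map (Int.cast : ℤ → unramHat p) =
        A.map (Int.cast : ℤ → unramHat p) * (A ^ j).map (Int.cast : ℤ → unramHat p) from
        Matrix.map_mul (f := Int.castRingHom (unramHat p))]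

/-- Commuting matrices act on the fixed vectors by commuting maps. -/
theorem fixAct_comm {A B : Matrix (Fin r) (Fin r) ℤ} (hA : Commute U A) (hB : Commute U B)
    (hAB : Commute A B) (d : fixVectors p U) :
    fixAct A hA (fixAct B hB d) = fixAct B hB (fixAct A hA d) := Subtype.ext (by
  rw [coe_fixAct, coe_fixAct, coe_fixAct, coe_fixAct, mulVec_mulVec, mulVec_mulVec]
  exact congrArg (· *ᵥ (d : Fin r → unramHat p))
    (hAB.map (Int.castRingHom (unramHat p)).mapMatrix).eq)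

/-- If `ev` kills the images of `d` under some matrices, it kills those under their integral
combinations. -/
theorem map_fixAct_eq_zero_of_mem_span {J : Type*} [AddCommGroup J] (ev : fixVectors p U →+ J)
    (d : fixVectors p U) {s : Set (Matrix (Fin r) (Fin r) ℤ)}
    (h : ∀ A ∈ s, ∃ hA : Commute U A, ev (fixAct A hA d) = 0) {A : Matrix (Fin r) (Fin r) ℤ}
    (hA : A ∈ Submodule.span ℤ s) : ∃ hA : Commute U A, ev (fixAct A hA d) = 0 := by
  induction hA using Submodule.span_induction with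
  | mem B hB => exact h B hB
  | zero =>
    exact ⟨Commute.zero_right U, by
      rw [show fixAct 0 (Commute.zero_right U) d = 0 from Subtype.ext (by
        rw [coe_fixAct, Matrix.map_zero _ Int.cast_zero, zero_mulVec]; rfl), map_zero]⟩
  | add B C _ _ hB hC =>
    obtain ⟨h1, e1⟩ := hB
    obtain ⟨h2, e2⟩ := hC
    refine ⟨h1.add_right h2, ?_⟩
    rw [show fixAct (B + C) (h1.add_right h2) d = fixAct B h1 d + fixAct C h2 d from
      Subtype.ext (by rw [coe_fixAct, Matrix.map_add _ Int.cast_add, add_mulVec]; rfl),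
      map_add, e1, e2, add_zero]
  | smul t B _ hB =>
    obtain ⟨h1, e1⟩ := hB
    refine ⟨h1.smul_right t, ?_⟩
    rw [show fixAct (t • B) (h1.smul_right t) d = t • fixAct B h1 d from Subtype.ext (by
      rw [coe_fixAct, show (t • B).map (Int.cast : ℤ → unramHat p) = t • B.map Int.cast from
        Matrix.map_smul _ t (fun b => by simp) B, smul_mulVec]; rfl), map_zsmul, e1, smul_zero]

end fixAct

omit [NeZero N] in
/-- Inertia at `p` multiplies a component killed by `p` of the image of a fixed vector by the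
cyclotomic character, when the map twists the Galois action as in `OrdinaryTate`. -/
theorem inertia_smul_component {r : ℕ} {U : Matrix (Fin r) (Fin r) ℤ}
    (Φ : fixVectors p U →+ tateModule (JZero N) p)
    (hgal : ∀ (g : PadicAlgCl p ≃ₐ[ℚ_[p]] PadicAlgCl p) (c c' : fixVectors p U),
      (∀ i, (c' : Fin r → unramHat p) i = unramGal p g ((c : Fin r → unramHat p) i)) →
      ∀ n a : ℕ, (∀ μ : AlgebraicClosure ℚ, μ ^ p ^ n = 1 → localGaloisToGlobal p g μ = μ ^ a) →
        localGaloisToGlobal p g • (Φ c).1 n = a • (Φ c').1 n)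
    {d : fixVectors p U} {n : ℕ} (hn : n ≠ 0) (hd : p • (Φ d).1 n = 0) {σ : Gal}
    (hσ : σ ∈ (padicPlace p).inertiaSubgroupIn ℚ) {a₀ : ℕ}
    (ha₀ : ∀ μ : AlgebraicClosure ℚ, μ ^ p = 1 → σ μ = μ ^ a₀) :
    σ • (Φ d).1 n = a₀ • (Φ d).1 n := by
  obtain ⟨g, rfl⟩ : σ ∈ (localGaloisToGlobal p).range := by
    rw [PoitouTate.range_localGaloisToGlobal]
    exact GaloisBasics.inertiaSubgroupIn_le_decompositionSubgroup hσ
  obtain ⟨b, hb, hbmod⟩ := exists_exponent hp.out _ ha₀ hn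
  have hfix : ∀ i, (d : Fin r → unramHat p) i = unramGal p g ((d : Fin r → unramHat p) i) :=
    fun i => (unramGal_eq_id_of_inertia p hσ _).symm
  show localGaloisToGlobal p g • (Φ d).1 n = _
  rw [hgal g d d hfix n b hb]
  obtain ⟨t, ht⟩ : (p : ℤ) ∣ (b : ℤ) - a₀ := by
    rw [← ZMod.intCast_zmod_eq_zero_iff_dvd]; push_cast; rw [hbmod, sub_self]
  rw [← natCast_zsmul, ← natCast_zsmul ((Φ d).1 n) a₀,
    show (b : ℤ) = a₀ + t * p by linear_combination ht,
    add_zsmul, mul_zsmul, natCast_zsmul ((Φ d).1 n) p, hd, zsmul_zero, add_zero]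

/-- **The ordinary line modulo a prime.** -/
theorem exists_inertia_eigen (hT : OrdinaryTate p N) (Q : QBasis N) (hpN : p ∣ N)
    {f : CuspForm (CongruenceSubgroup.Gamma0 N) 2} (hf : f.IsNormalizedEigenform)
    {k : Type*} [Field k] [CharP k p] (φ : integralClosure ℤ ℂ →+* k) {S : Finset ℕ} (a : ℕ → ℤ)
    (hS : ∀ q : ℕ, q.Prime → q ∣ N → q ∈ S)
    (ha : ∀ ℓ : ℕ, ℓ.Prime → ℓ ∉ S → ∀ c : integralClosure ℤ ℂ,
      (c : ℂ) = qCoeff f ℓ → φ c = (a ℓ : k))
    (hu : ∀ c : integralClosure ℤ ℂ, (c : ℂ) = qCoeff f p → φ c ≠ 0) :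
    ∃ y : JZero N, y ≠ 0 ∧ y ∈ eigenPoints N p S a ∧
      ∀ σ ∈ (padicPlace p).inertiaSubgroupIn ℚ, ∀ a₀ : ℕ,
        (∀ μ : AlgebraicClosure ℚ, μ ^ p = 1 → σ μ = μ ^ a₀) → σ • y = a₀ • y := by
  classical
  let ι := {ℓ : Nat.Primes // (ℓ : ℕ) ∉ S}
  have hgood : ∀ ℓ : ι, ¬ ((ℓ : Nat.Primes) : ℕ) ∣ N := fun ℓ h => ℓ.2 (hS _ ℓ.1.2 h)
  choose M hMrep hMT using fun ℓ : ι => exists_isTMat Q ℓ.1.2 (hgood ℓ)
  obtain ⟨U, hUrep, hUU⟩ := exists_isUMat Q hp.out hpN
  obtain ⟨Φ, hΦ, hhecke, hgal⟩ := hT Q U hUU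
  let P : ι → Matrix (Fin Q.rank) (Fin Q.rank) ℤ := fun ℓ => M ℓ - a ℓ.1 • 1
  have hMM : ∀ i j, Commute (M i) (M j) := fun i j =>
    (hMrep i).commute (hMrep j) (CuspForm.heckeTLin_comm 2 i.1.2 (hgood i) j.1.2 (hgood j))
  have hUM : ∀ i, Commute U (M i) := fun i =>
    hUrep.commute (hMrep i) (CuspForm.heckeTLin_heckeULin_comm 2 i.1.2 (hgood i) hpN).symm
  have hUP : ∀ i, Commute U (P i) := fun i =>
    (hUM i).sub_right ((Commute.one_right U).smul_right _)
  have hPP : ∀ i j, Commute (P i) (P j) := fun i j =>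
    ((hMM i j).sub_left ((Commute.one_left _).smul_left _)).sub_right
      ((Commute.one_right (P i)).smul_right _)
  obtain ⟨x, c, hc, hx0, hxT, hxU⟩ := exists_left_eigenvector Q hf φ
  have hxP : ∀ i, x ᵥ* (P i).map (Int.cast : ℤ → k) = 0 := fun i =>
    vecMul_sub_smul_eq_zero <| by
      rw [hxT _ i.1.2 (hgood i) _ (hMT i), ha _ i.1.2 i.2 _ (hc _)]
  obtain ⟨s', hs', hspan⟩ := Submodule.fg_span_iff_fg_span_finset_subset (Set.range P) |>.mp
    (IsNoetherian.noetherian (Submodule.span ℤ (Set.range P)))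
  obtain ⟨s, hs⟩ : ∃ s : Finset ι, ↑s' ⊆ P '' ↑s := by
    choose g hg using fun A : s' => hs' A.2
    exact ⟨Finset.univ.image g, fun A hA => ⟨g ⟨A, hA⟩, by simp, hg ⟨A, hA⟩⟩⟩
  obtain ⟨c₀, hc₀, hnil⟩ := exists_fixVector U P hPP hUP x hx0
    (hu _ (hc p)) (hxU p hp.out hpN U hUU) hxP s
  obtain ⟨n, hn0, hn, hpn⟩ := exists_component_ne_zero (x := Φ c₀) fun h => hc₀
    (congrArg Subtype.val (hΦ (h.trans (map_zero Φ).symm)))
  let ev : fixVectors p U →+ JZero N :=
    (Pi.evalAddMonoidHom (fun _ => JZero N) n).comp ((tateModule (JZero N) p).subtype.comp Φ)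
  let Op : ι → JZero N →+ JZero N := fun i =>
    (heckeOperatorBar N i.1).toAddMonoidHom - zsmulAddGroupHom (a i.1)
  have hop : ∀ i d, ev (fixAct (P i) (hUP i) d) = Op i (ev d) := by
    intro i d
    have hd : fixAct (P i) (hUP i) d = fixAct (M i) (hUM i) d - a i.1 • d := Subtype.ext (by
      rw [coe_fixAct, show (P i).map (Int.cast : ℤ → unramHat p) =
        (M i).map (Int.cast : ℤ → unramHat p) - (a i.1 : unramHat p) • 1 by
          ext s t; by_cases h : s = t <;> simp [P, h, Matrix.intCast_apply],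
        sub_mulVec, smul_mulVec, one_mulVec, Int.cast_smul_eq_zsmul]
      rfl)
    rw [hd, map_sub, map_zsmul]
    show ev (fixAct (M i) (hUM i) d) - a i.1 • ev d =
      heckeOperatorBar N i.1 (ev d) - a i.1 • ev d
    rw [show ev (fixAct (M i) (hUM i) d) = heckeOperatorBar N i.1 (ev d) from
      hhecke _ i.1.2 (hgood i) (M i) (hMT i) d _ rfl n]
  obtain ⟨d, hd0, hann, hkill⟩ := exists_killed ev (fun i => fixAct (P i) (hUP i)) Op hop
    (fun i j => fixAct_comm (hUP i) (hUP j) (hPP i j)) s c₀ hn fun i hi => by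
      obtain ⟨j, e, he⟩ := hnil i hi n
      refine ⟨j, ?_⟩
      have : (fixAct (P i) (hUP i))^[j] c₀ = p ^ n • e := Subtype.ext (by
        rw [coe_iterate_fixAct, he, AddSubgroup.coe_nsmul, ← Nat.cast_smul_eq_nsmul (unramHat p),
          Nat.cast_pow])
      rw [this, map_nsmul]
      exact tateModule_pow_smul (Φ e) n
  have hpy : p • ev d = 0 := by
    rw [← natCast_zsmul]
    exact hann _ (by rw [natCast_zsmul]; exact hpn)
  refine ⟨ev d, hd0, ⟨hpy, fun ℓ hℓ => ?_⟩,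
    fun σ hσ a₀ ha₀ => inertia_smul_component Φ hgal hn0 hpy hσ ha₀⟩
  have hP : P ⟨ℓ, hℓ⟩ ∈ Submodule.span ℤ (↑s' : Set (Matrix (Fin Q.rank) (Fin Q.rank) ℤ)) :=
    hspan ▸ Submodule.subset_span ⟨_, rfl⟩
  obtain ⟨_, h0⟩ := map_fixAct_eq_zero_of_mem_span ev d (fun B hB => by
    obtain ⟨i, hi, rfl⟩ := hs hB
    exact ⟨hUP i, hkill i hi⟩) hP
  rw [hop] at h0
  exact sub_eq_zero.mp h0

/-- **No elliptic inertia element.** If the residual eigensystem of `f` is `tr r` and its `U_p`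
eigenvalue is not zero, inertia at `p` contains no `σ` with `r σ` without eigenvalue in `𝔽_p`. -/
theorem false_of_elliptic_inertia (hT : OrdinaryTate p N) (Q : QBasis N) (hpN : p ∣ N)
    {f : CuspForm (CongruenceSubgroup.Gamma0 N) 2} (hf : f.IsNormalizedEigenform)
    {k : Type*} [Field k] [CharP k p] (φ : integralClosure ℤ ℂ →+* k) {S : Finset ℕ} {a : ℕ → ℤ}
    (hS : ∀ q : ℕ, q.Prime → q ∣ N → q ∈ S)
    (ha : ∀ ℓ : ℕ, ℓ.Prime → ℓ ∉ S → ∀ c : integralClosure ℤ ℂ,
      (c : ℂ) = qCoeff f ℓ → φ c = (a ℓ : k))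
    (hu : ∀ c : integralClosure ℤ ℂ, (c : ℂ) = qCoeff f p → φ c ≠ 0)
    (r : Gal →* Matrix (Fin 2) (Fin 2) (ZMod p)) (hr : GaloisFactorsThroughFiniteLevel r)
    (hfrob : ∀ ℓ : ℕ, ℓ.Prime → ℓ ∉ S → ∀ A : ValuationSubring (AlgebraicClosure ℚ),
      A.LiesOverPrime ℓ → ∀ φ : Gal, A.IsFrobeniusAt φ ℓ →
        (r φ).trace = (a ℓ : ZMod p) ∧ (r φ).det = (ℓ : ZMod p))
    {σ : Gal} (hσ : σ ∈ (padicPlace p).inertiaSubgroupIn ℚ)
    (hell : ∀ c : ZMod p, c ^ 2 - (r σ).trace * c + (r σ).det ≠ 0) : False := by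
  obtain ⟨y, hy0, hy, hin⟩ := exists_inertia_eigen hT Q hpN hf φ a hS ha hu
  have : NeZero p := ⟨hp.out.ne_zero⟩
  obtain ⟨ζ, hζ⟩ := HasEnoughRootsOfUnity.exists_primitiveRoot (AlgebraicClosure ℚ) p
  obtain ⟨a₀, -, ha₀⟩ := hζ.eq_pow_of_pow_eq_one (ξ := σ ζ)
    (by rw [← map_pow, hζ.pow_eq_one, map_one])
  refine hy0 (eq_zero_of_smul_eq r hr hfrob hy (hin σ hσ a₀ fun μ hμ => ?_) (hell _))
  obtain ⟨i, -, rfl⟩ := hζ.eq_pow_of_pow_eq_one hμ
  rw [map_pow, ← ha₀, ← pow_mul, ← pow_mul, mul_comm]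

end Fermat.Agent.OrdinaryExclusion
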