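import Fermat.Agent.OrdinaryCurve.Interface
import Fermat.Agent.HeckeEigen.Integral

/-!
# Integral matrices of the Hecke operators on a saturated basis

The coefficient vectors of a saturated integral basis span `ℤ^r`; hence the Hecke operators have
integral matrices, and a normalised eigenform gives a common left eigenvector with integral
entries.
-/

set_option autoImplicit false

noncomputable section

open Matrix ModularFormClass

namespace Fermat.Agent.OrdinaryExclusion

open OrdinaryCurve (QBasis IsUMat IsTMat)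

variable {N : ℕ} [NeZero N]

omit [NeZero N] in
/-- The coefficient vectors of a saturated basis span `ℤ^r`. -/
theorem span_range_coeff (Q : QBasis N) : Submodule.span ℤ (Set.range Q.a) = ⊤ := by
  classical
  by_contra hne
  obtain ⟨K, hK, hle⟩ :=
    (eq_top_or_exists_le_coatom (Submodule.span ℤ (Set.range Q.a))).resolve_left hne
  have : IsSimpleModule ℤ ((Fin Q.rank → ℤ) ⧸ K) := isSimpleModule_iff_isCoatom.mpr hK
  obtain ⟨I, hI, ⟨e⟩⟩ := isSimpleModule_iff_quot_maximal.mp this
  obtain ⟨q, hq⟩ := (IsPrincipalIdealRing.principal I).principal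
  have hsel : ∀ i, ∃ c : ℤ, Ideal.Quotient.mk I c = e (K.mkQ (Pi.single i 1)) := fun i =>
    Ideal.Quotient.mk_surjective _
  choose c hc using hsel
  have hform : ∀ v : Fin Q.rank → ℤ, e (K.mkQ v) = Ideal.Quotient.mk I (∑ i, c i * v i) := by
    intro v
    conv_lhs => rw [pi_eq_sum_univ' v]
    rw [map_sum, map_sum, map_sum]
    refine Finset.sum_congr rfl fun i _ => ?_
    rw [map_smul, map_smul, ← hc, mul_comm, map_mul, zsmul_eq_mul,
      eq_intCast (Ideal.Quotient.mk I) (v i)]
  have hdvd : ∀ i, q ∣ c i := Q.saturated q c fun n => by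
    have h0 : e (K.mkQ (Q.a n)) = 0 := by
      rw [Submodule.mkQ_apply,
        (Submodule.Quotient.mk_eq_zero K).mpr (hle (Submodule.subset_span ⟨n, rfl⟩)), map_zero]
    rw [hform, Ideal.Quotient.eq_zero_iff_mem, hq] at h0
    exact Ideal.mem_span_singleton.mp h0
  apply hK.1
  rw [eq_top_iff]
  intro v _
  rw [← Submodule.Quotient.mk_eq_zero K]
  apply e.injective
  rw [map_zero, ← Submodule.mkQ_apply, hform, Ideal.Quotient.eq_zero_iff_mem, hq,
    ← Ideal.span, Ideal.mem_span_singleton]
  exact Finset.dvd_sum fun i _ => dvd_mul_of_dvd_left (hdvd i) _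

omit [NeZero N] in
/-- Integral weights recovering a coordinate from the coefficient vectors. -/
theorem exists_weights (Q : QBasis N) (j : Fin Q.rank) :
    ∃ k : ℕ →₀ ℤ, ∀ i : Fin Q.rank,
      (k.sum fun n z => z * Q.a n i) = if i = j then 1 else 0 := by
  classical
  obtain ⟨k, hk⟩ := Finsupp.mem_span_range_iff_exists_finsupp.mp
    (show (Pi.single j 1 : Fin Q.rank → ℤ) ∈ Submodule.span ℤ (Set.range Q.a) by
      rw [span_range_coeff]; trivial)
  refine ⟨k, fun i => ?_⟩
  have := congrFun hk i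
  simpa [Finsupp.sum, Finset.sum_apply, Pi.single_apply] using this

omit [NeZero N] in
/-- A vector is determined by its pairings with the coefficient vectors. -/
theorem eq_sum_weights {A : Type*} [CommRing A] (Q : QBasis N) (j : Fin Q.rank) {k : ℕ →₀ ℤ}
    (hk : ∀ i : Fin Q.rank, (k.sum fun n z => z * Q.a n i) = if i = j then 1 else 0)
    (x : Fin Q.rank → A) (b : ℕ → A) (hb : ∀ n, ∑ i, x i * (Q.a n i : A) = b n) :
    x j = k.sum fun n z => (z : A) * b n := by
  classical
  calc x j = ∑ i, x i * (((k.sum fun n z => z * Q.a n i : ℤ)) : A) := by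
        simp [hk]
    _ = k.sum fun n z => (z : A) * ∑ i, x i * (Q.a n i : A) := by
        simp only [Finsupp.sum, Int.cast_sum, Int.cast_mul, Finset.mul_sum]
        rw [Finset.sum_comm]
        refine Finset.sum_congr rfl fun n _ => Finset.sum_congr rfl fun i _ => ?_
        ring
    _ = _ := by simp only [hb]

/-- The integral matrix `M` gives the operator `T` in the basis `Q`. -/
def Represents (Q : QBasis N) (T : Module.End ℂ (CuspForm (CongruenceSubgroup.Gamma0 N) 2))
    (M : Matrix (Fin Q.rank) (Fin Q.rank) ℤ) : Prop :=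
  ∀ i, T (Q.f i) = ∑ j, (M i j : ℂ) • Q.f j

omit [NeZero N] in
/-- An operator preserving integrality of coefficients has an integral matrix. -/
theorem exists_represents (Q : QBasis N)
    (T : Module.End ℂ (CuspForm (CongruenceSubgroup.Gamma0 N) 2)) (b : ℕ → Fin Q.rank → ℤ)
    (hb : ∀ n i, qCoeff (T (Q.f i)) n = (b n i : ℂ)) :
    ∃ M, Represents Q T M ∧ ∀ n, b n = M *ᵥ Q.a n := by
  classical
  choose k hk using exists_weights Q
  have hex : ∀ i, ∃ C : Fin Q.rank → ℂ, ∑ j, C j • Q.f j = T (Q.f i) := fun i =>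
    (Submodule.mem_span_range_iff_exists_fun ℂ).mp (Q.spans ▸ Submodule.mem_top)
  choose C hC using hex
  have hpair : ∀ i n, ∑ j, C i j * (Q.a n j : ℂ) = (b n i : ℂ) := by
    intro i n
    rw [← hb, ← hC i, HeckeEigen.qCoeff_sum]
    refine Finset.sum_congr rfl fun j _ => ?_
    rw [HeckeEigen.qCoeff_smul, Q.coeff]
  refine ⟨fun i j => (k j).sum fun n z => z * b n i, fun i => ?_, fun n => funext fun i => ?_⟩
  · rw [← hC i]
    refine Finset.sum_congr rfl fun j _ => ?_
    rw [eq_sum_weights Q j (hk j) (C i) _ (hpair i)]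
    simp [Finsupp.sum]
  · have h := hpair i n
    apply Int.cast_injective (α := ℂ)
    show _ = ((∑ j, ((k j).sum fun n z => z * b n i) * Q.a n j : ℤ) : ℂ)
    rw [← h, Int.cast_sum]
    refine Finset.sum_congr rfl fun j _ => ?_
    rw [eq_sum_weights Q j (hk j) (C i) _ (hpair i)]
    simp [Finsupp.sum]

omit [NeZero N] in
/-- Matrices of commuting operators commute. -/
theorem Represents.commute {Q : QBasis N}
    {T T' : Module.End ℂ (CuspForm (CongruenceSubgroup.Gamma0 N) 2)}
    {M M' : Matrix (Fin Q.rank) (Fin Q.rank) ℤ} (h : Represents Q T M) (h' : Represents Q T' M')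
    (hTT' : Commute T T') : Commute M M' := by
  have hcomp : ∀ {T T' : Module.End ℂ (CuspForm (CongruenceSubgroup.Gamma0 N) 2)}
      {M M' : Matrix (Fin Q.rank) (Fin Q.rank) ℤ}, Represents Q T M → Represents Q T' M' →
      ∀ i, T (T' (Q.f i)) = ∑ j, ((M' * M) i j : ℂ) • Q.f j := by
    intro T T' M M' h h' i
    rw [h' i, map_sum]
    rw [Finset.sum_congr rfl fun x _ => (by rw [map_smul, h x, Finset.smul_sum] :
      T ((M' i x : ℂ) • Q.f x) = ∑ j, (M' i x : ℂ) • (M x j : ℂ) • Q.f j), Finset.sum_comm]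
    simp only [smul_smul]
    simp only [Matrix.mul_apply, Int.cast_sum, Int.cast_mul, Finset.sum_smul]
  ext i j
  have he := LinearMap.congr_fun hTT'.eq (Q.f i)
  rw [Module.End.mul_apply, Module.End.mul_apply, hcomp h h' i, hcomp h' h i] at he
  have h0 := Fintype.linearIndependent_iff.mp Q.indep
    (fun j => ((M * M') i j : ℂ) - ((M' * M) i j : ℂ)) (by
      simp only [sub_smul, Finset.sum_sub_distrib]
      rw [he, sub_self]) j
  exact_mod_cast sub_eq_zero.mp h0

omit [NeZero N] in
/-- The integral matrix of a good Hecke operator. -/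
theorem exists_isTMat (Q : QBasis N) {l : ℕ} (hl : l.Prime) (hlN : ¬ l ∣ N) :
    ∃ M, Represents Q (CuspForm.heckeTLin 2 hl hlN) M ∧ IsTMat Q l M := by
  obtain ⟨M, hM, hb⟩ := exists_represents Q (CuspForm.heckeTLin 2 hl hlN)
    (fun n => Q.a (l * n) + if l ∣ n then (l : ℤ) • Q.a (n / l) else 0) fun n i => by
      rw [HeckeEigen.qCoeff_heckeTLin, show (2 : ℤ) - 1 = 1 by norm_num, zpow_one, mul_comm n l]
      split_ifs <;> simp [Q.coeff]
  exact ⟨M, hM, hb⟩

/-- The integral matrix of `U_q`. -/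
theorem exists_isUMat (Q : QBasis N) {q : ℕ} (hq : q.Prime) (hqN : q ∣ N) :
    ∃ M, Represents Q (CuspForm.heckeULin 2 hqN) M ∧ IsUMat Q q M := by
  obtain ⟨M, hM, hb⟩ := exists_represents Q (CuspForm.heckeULin 2 hqN)
    (fun n => Q.a (q * n)) fun n i => by
      rw [HeckeEigen.qCoeff_heckeULin hq.ne_zero, mul_comm n q, Q.coeff]
  exact ⟨M, hM, hb⟩

/-- A normalised eigenform reduces to a nonzero common left eigenvector. -/
theorem exists_left_eigenvector (Q : QBasis N) {f : CuspForm (CongruenceSubgroup.Gamma0 N) 2}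
    (hf : f.IsNormalizedEigenform) {k : Type*} [Field k] (φ : integralClosure ℤ ℂ →+* k) :
    ∃ (x : Fin Q.rank → k) (c : ℕ → integralClosure ℤ ℂ),
      (∀ n, (c n : ℂ) = qCoeff f n) ∧ x ≠ 0 ∧
      (∀ l : ℕ, l.Prime → ¬ l ∣ N → ∀ M, IsTMat Q l M →
        x ᵥ* M.map (Int.cast : ℤ → k) = φ (c l) • x) ∧
      (∀ q : ℕ, q.Prime → q ∣ N → ∀ M, IsUMat Q q M →
        x ᵥ* M.map (Int.cast : ℤ → k) = φ (c q) • x) := by
  classical
  have hint : CuspForm.HasIntegralStructure N 2 := by
    refine HeckeEigen.hasIntegralStructure_of_hasIntegralBasis (eq_top_iff.mpr ?_)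
    rw [← Q.spans]
    refine Submodule.span_mono (Set.range_subset_iff.mpr fun i n => ?_)
    rw [← Q.coeff]
    exact intCast_mem _ _
  set c : ℕ → integralClosure ℤ ℂ := fun n =>
    ⟨qCoeff f n, HeckeEigen.qCoeff_mem_integralClosure hint hf n⟩
  obtain ⟨X, hX⟩ := (Submodule.mem_span_range_iff_exists_fun ℂ).mp
    (show f ∈ Submodule.span ℂ (Set.range Q.f) by rw [Q.spans]; trivial)
  choose w hw using exists_weights Q
  have hpair : ∀ n, ∑ i, X i * (Q.a n i : ℂ) = qCoeff f n := fun n => by
    rw [← hX, HeckeEigen.qCoeff_sum]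
    refine Finset.sum_congr rfl fun i _ => ?_
    rw [HeckeEigen.qCoeff_smul, Q.coeff]
  let X' : Fin Q.rank → integralClosure ℤ ℂ :=
    fun j => (w j).sum fun n z => (z : integralClosure ℤ ℂ) * c n
  have hX' : ∀ j, (X' j : ℂ) = X j := fun j => by
    rw [eq_sum_weights Q j (hw j) X _ hpair]
    simp [X', Finsupp.sum, c]
  have hpair' : ∀ n, ∑ i, X' i * (Q.a n i : integralClosure ℤ ℂ) = c n := fun n =>
    Subtype.ext (by push_cast; simp only [hX']; exact hpair n)
  have hpk : ∀ n, ∑ i, φ (X' i) * (Q.a n i : k) = φ (c n) := fun n => by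
    rw [← hpair' n, map_sum]
    simp [map_mul, map_intCast]
  have hmain : ∀ (l : ℕ) (M : Matrix (Fin Q.rank) (Fin Q.rank) ℤ),
      (∀ n, ∑ i, φ (X' i) * (((M *ᵥ Q.a n) i : ℤ) : k) = φ (c l) * φ (c n)) →
      (fun i => φ (X' i)) ᵥ* M.map (Int.cast : ℤ → k) = φ (c l) • fun i => φ (X' i) := by
    intro l M hM
    funext j
    rw [Pi.smul_apply, smul_eq_mul]
    set d : Fin Q.rank → k := fun j => ((fun i => φ (X' i)) ᵥ* M.map (Int.cast : ℤ → k)) j
    set d' : Fin Q.rank → k := fun j => φ (c l) * φ (X' j)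
    have h1 : ∀ n, ∑ j, d j * (Q.a n j : k) = φ (c l) * φ (c n) := fun n => by
      rw [← hM n]
      simp only [d, vecMul, dotProduct, Matrix.map_apply, mulVec, Int.cast_sum, Int.cast_mul,
        Finset.mul_sum, Finset.sum_mul]
      rw [Finset.sum_comm]
      simp only [mul_assoc]
    have h2 : ∀ n, ∑ j, d' j * (Q.a n j : k) = φ (c l) * φ (c n) := fun n => by
      rw [← hpk n, Finset.mul_sum]
      simp [d', mul_assoc]
    show d j = d' j
    rw [eq_sum_weights Q j (hw j) d _ h1, eq_sum_weights Q j (hw j) d' _ h2]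
  refine ⟨fun i => φ (X' i), c, fun n => rfl, fun h0 => ?_,
    fun l hl hlN M hM => hmain l M fun n => ?_,
    fun q hq hqN M hM => hmain q M fun n => ?_⟩
  · have h1 : φ (c 1) = 1 := by
      rw [show c 1 = 1 from Subtype.ext hf.qCoeff_one, map_one]
    rw [← hpk 1] at h1
    simp [fun i => congrFun h0 i] at h1
  · rw [← hM n]
    have e : c (l * n) + (if l ∣ n then (l : integralClosure ℤ ℂ) * c (n / l) else 0) = c l * c n :=
      Subtype.ext (by
        have := HeckeEigen.qCoeff_mul_good hf hl hlN n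
        rw [mul_comm n l] at this
        split_ifs at this ⊢ <;> simpa [c] using this)
    rw [← map_mul, ← e, map_add]
    simp only [Pi.add_apply, Int.cast_add, mul_add, Finset.sum_add_distrib, hpk]
    congr 1
    split_ifs
    · rw [map_mul, map_natCast, ← hpk, Finset.mul_sum]
      refine Finset.sum_congr rfl fun i _ => ?_
      simp only [Pi.smul_apply, smul_eq_mul, Int.cast_mul, Int.cast_natCast]
      ring
    · simp
  · rw [← hM n, hpk, ← map_mul, show c (q * n) = c q * c n from Subtype.ext (by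
      have := HeckeEigen.qCoeff_mul_bad hf hq hqN n
      rw [mul_comm n q] at this
      simpa [c] using this)]

end Fermat.Agent.OrdinaryExclusion
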