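import Fermat.Agent.TateExport.Maps
import Fermat.Agent.JacCompare.Faithful
import Fermat.Agent.EisensteinDescent.HeckeGalois

/-!
# The Eichler–Shimura relation on the torsion of `J₀(N)`

The relation holds on parabolic characters modulo every power of `p`; the comparison maps have
cokernels of bounded exponent, and the torsion of `J₀(N)` is divisible.
-/

set_option autoImplicit false

noncomputable section

open CongruenceSubgroup ModularCurve
open scoped MatrixGroups

namespace Fermat.Agent.OrdinaryExclusion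

open HeckeDatum (ParChar)
open HeckeLattice (gamma0System)

local notation "Gal" => AlgebraicClosure ℚ ≃ₐ[ℚ] AlgebraicClosure ℚ

variable {N : ℕ} [NeZero N]

/-- The Eichler–Shimura relation at a Frobenius element on `p`-power torsion. -/
theorem frobenius_relation_torsion {p : ℕ} (hp : p.Prime) (k : ℕ) {x : JZero N}
    (hx : p ^ k • x = 0) (ℓ : Nat.Primes) (hℓN : ¬ (ℓ : ℕ) ∣ N) (hℓp : (ℓ : ℕ) ≠ p)
    {A : ValuationSubring (AlgebraicClosure ℚ)} (hA : A.LiesOverPrime ℓ) {φ : Gal}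
    (hφ : A.IsFrobeniusAt φ ℓ) :
    φ • φ • x - heckeOperatorBar N ℓ (φ • x) + (ℓ : ℕ) • x = 0 := by
  have := Fact.mk ℓ.2
  obtain ⟨G, hG⟩ := TateExport.exists_hasTateMaps N hp
  obtain ⟨d, Φ, hd, -, hgal, hhecke, hker⟩ := hG
  obtain ⟨m, hm, himg⟩ := JacCompare.exists_nsmul_mem_image (N := N) hd
  set v := m.factorization p
  obtain ⟨y, hy, rfl⟩ := JacCompare.exists_pow_nsmul_eq hp k v hx
  have : NeZero (p ^ (k + v)) := ⟨pow_ne_zero _ hp.ne_zero⟩
  obtain ⟨χ, hχ⟩ := himg _ (Φ (k + v)) (hker (k + v)) y hy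
  let R : JZero N →+ JZero N :=
    (DistribSMul.toAddMonoidHom (JZero N) φ).comp (DistribSMul.toAddMonoidHom (JZero N) φ)
      - (heckeOperatorBar N ℓ).toAddMonoidHom.comp (DistribSMul.toAddMonoidHom (JZero N) φ)
      + nsmulAddMonoidHom (ℓ : ℕ)
  show R (p ^ v • y) = 0
  rw [map_nsmul]
  refine JacCompare.ordProj_nsmul_eq_zero hp hm (k := k + v) ?_ (by rw [← map_nsmul, hy, map_zero])
  rw [← map_nsmul, ← hχ]
  set Tχ : ParChar N (p ^ (k + v)) :=
    ⟨(gamma0System N (ℓ : ℕ) hℓN).transfer (G.rep (k + v) φ χ).1,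
      HeckeLattice.CosetSystem.transfer_isParabolicHom _ (G.rep (k + v) φ χ).2⟩ with hTχ
  have hrel : G.rep (k + v) φ (G.rep (k + v) φ χ) - Tχ + (ℓ : ℕ) • χ = 0 := by
    refine Subtype.ext ?_
    have h := G.frobenius (k + v) ℓ ℓ.2 hℓN hℓp A hA φ hφ χ
    rw [MonoidHom.toAdditive_id, AddMonoidHom.comp_id] at h
    exact h
  have hT : Φ (k + v) Tχ = heckeOperatorBar N ℓ (Φ (k + v) (G.rep (k + v) φ χ)) :=
    hhecke (k + v) ℓ ℓ.2 hℓN _ Tχ rfl
  show φ • φ • Φ (k + v) χ - heckeOperatorBar N ℓ (φ • Φ (k + v) χ) + (ℓ : ℕ) • Φ (k + v) χ = 0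
  rw [← hgal, ← hgal, ← hT, ← map_nsmul, ← map_sub, ← map_add, hrel, map_zero]

omit [NeZero N] in
/-- Galois commutes with natural multiples. -/
theorem nsmul_galois_smul (n : ℕ) (σ : Gal) (x : JZero N) : n • (σ • x) = σ • (n • x) :=
  (map_nsmul (DistribSMul.toAddMonoidHom (JZero N) σ) n x).symm

end Fermat.Agent.OrdinaryExclusion
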